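import Mathlib.NumberTheory.LSeries.PrimesInAP
import Mathlib.NumberTheory.Chebyshev

/-!
# The reciprocals of the primes of a class have a divergent sum
-/

set_option autoImplicit false

noncomputable section

namespace FA.AdditiveErdosKac

open Filter Topology ArithmeticFunction ArithmeticFunction.vonMangoldt
open scoped ArithmeticFunction.vonMangoldt

variable {q : ℕ} [NeZero q] {a : ZMod q}

theorem not_summable_class_inv (ha : IsUnit a) :
    ¬ Summable ({p : ℕ | p.Prime ∧ (p : ZMod q) = a}.indicator fun n : ℕ => (n : ℝ)⁻¹) := by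
  intro hg
  set g := ({p : ℕ | p.Prime ∧ (p : ZMod q) = a}.indicator fun n : ℕ => (n : ℝ)⁻¹) with hgdef
  obtain ⟨C, hC⟩ := LSeries_residueClass_lower_bound ha
  have hφ : 0 < (q.totient : ℝ)⁻¹ :=
    inv_pos.2 (Nat.cast_pos.2 (Nat.totient_pos.2 (NeZero.pos q)))
  set ε := (q.totient : ℝ)⁻¹ / 2 with hε
  obtain ⟨s, hs⟩ := (tendsto_order.1 (tendsto_tsum_compl_atTop_zero g)).2 ε (half_pos hφ)
    |>.exists
  set h : ℕ → ℝ := fun n => (if n.Prime then 0 else residueClass a n) / n +
    (s : Set ℕ).indicator (fun n => residueClass a n / n) n with hh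
  set g' : ℕ → ℝ := ((s : Set ℕ)ᶜ).indicator g with hg'
  have hhsum : Summable h := (summable_residueClass_non_primes_div a).add
    (summable_of_hasFiniteSupport (s.finite_toSet.subset Set.support_indicator_subset))
  have hg'sum : Summable g' := hg.indicator _
  have hg'le : ∑' n, g' n < ε := by
    rw [hg', ← tsum_subtype]
    exact hs
  have key : ∀ x ∈ Set.Ioc (1 : ℝ) 2, (q.totient : ℝ)⁻¹ / (x - 1) - C ≤
      ∑' n, h n + (x - 1)⁻¹ * ε := fun x hx => by
    have hx1 : 0 < x - 1 := sub_pos.2 hx.1
    refine (hC hx).trans ?_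
    have hle : ∀ n : ℕ, residueClass a n / (n : ℝ) ^ x ≤ h n + (x - 1)⁻¹ * g' n := fun n => by
      have hr := residueClass_nonneg a n
      have hrn : residueClass a n / (n : ℝ) ^ x ≤ residueClass a n / n := by
        rcases n.eq_zero_or_pos with rfl | hn
        · simp
        refine div_le_div_of_nonneg_left hr (Nat.cast_pos.2 hn) ?_
        exact (Real.rpow_one (n : ℝ)).symm.trans_le
          (Real.rpow_le_rpow_of_exponent_le (Nat.one_le_cast.2 hn) hx.1.le)
      have hg0 : 0 ≤ g' n := Set.indicator_nonneg (fun m _ =>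
        Set.indicator_nonneg (fun k _ => by positivity) m) n
      by_cases hns : n ∈ s
      · refine le_add_of_le_of_nonneg ?_ (by positivity)
        rw [hh]
        simp only
        rw [Set.indicator_of_mem (Finset.mem_coe.2 hns)]
        refine le_add_of_nonneg_of_le (div_nonneg ?_ (Nat.cast_nonneg n)) hrn
        split_ifs <;> simp [hr]
      · rw [hh, hg']
        simp only
        rw [Set.indicator_of_notMem (show n ∉ (s : Set ℕ) from mt Finset.mem_coe.1 hns),
          Set.indicator_of_mem (show n ∈ (s : Set ℕ)ᶜ from mt Finset.mem_coe.1 hns), add_zero]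
        by_cases hp : n.Prime
        · rw [if_pos hp, zero_div, zero_add]
          by_cases hc : (n : ZMod q) = a
          · rw [hgdef, Set.indicator_of_mem (show n ∈ {p : ℕ | p.Prime ∧ (p : ZMod q) = a} from
              ⟨hp, hc⟩)]
            have hn0 : (0 : ℝ) < n := Nat.cast_pos.2 hp.pos
            rw [residueClass, Set.indicator_of_mem (show n ∈ {m : ℕ | (m : ZMod q) = a} from hc),
              vonMangoldt_apply_prime hp, show x = (x - 1) + 1 by ring, Real.rpow_add_one hn0.ne',
              add_sub_cancel_right, ← div_div, div_eq_mul_inv _ (n : ℝ)]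
            refine mul_le_mul_of_nonneg_right ?_ (by positivity)
            rw [div_le_iff₀ (Real.rpow_pos_of_pos hn0 _), inv_mul_eq_div, le_div_iff₀ hx1,
              Real.rpow_def_of_pos hn0]
            linarith [Real.add_one_le_exp (Real.log n * (x - 1))]
          · rw [residueClass,
              Set.indicator_of_notMem (show n ∉ {m : ℕ | (m : ZMod q) = a} from hc), zero_div]
            exact mul_nonneg (by positivity) (Set.indicator_nonneg (fun k _ => by positivity) n)
        · rw [if_neg hp]
          refine le_add_of_le_of_nonneg hrn ?_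
          exact mul_nonneg (by positivity) (Set.indicator_nonneg (fun k _ => by positivity) n)
    have hsummable : Summable fun n : ℕ => residueClass a n / (n : ℝ) ^ x :=
      (hhsum.add (hg'sum.mul_left _)).of_nonneg_of_le
        (fun n => div_nonneg (residueClass_nonneg a n) (by positivity)) hle
    refine (hsummable.tsum_le_tsum hle (hhsum.add (hg'sum.mul_left _))).trans ?_
    rw [hhsum.tsum_add (hg'sum.mul_left _), tsum_mul_left]
    gcongr
  set D := ∑' n, h n + C with hD
  set d := min 1 (ε / (|D| + 1)) with hd
  have hd0 : 0 < d := lt_min one_pos (div_pos (half_pos hφ) (by positivity))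
  have h1 := key (1 + d) ⟨by linarith, by linarith [min_le_left 1 (ε / (|D| + 1))]⟩
  rw [add_sub_cancel_left, inv_mul_eq_div] at h1
  have h2 : ε / d ≤ D := by
    rw [show (q.totient : ℝ)⁻¹ = 2 * ε by ring, mul_div_assoc] at h1
    linarith
  have h3 : |D| + 1 ≤ ε / d := by
    rw [le_div_iff₀ hd0]
    calc (|D| + 1) * d ≤ (|D| + 1) * (ε / (|D| + 1)) :=
          mul_le_mul_of_nonneg_left (min_le_right _ _) (by positivity)
      _ = ε := by field_simp
  linarith [le_abs_self D]

end FA.AdditiveErdosKac
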