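import Fermat.Agent.AdditiveErdosKac.Model
import Fermat.Agent.Lindeberg.Taylor

/-!
# The characteristic function of the model and of the integers
-/

set_option autoImplicit false

noncomputable section

namespace FA.AdditiveErdosKac

open Finset Complex
open FA.Lindeberg (expRem norm_expRem_le norm_prod_sub_le abs_exp_neg_sub_le)
open scoped Real Nat

/-- The Taylor polynomial of `exp`. -/
def expPoly (n : ℕ) (z : ℂ) : ℂ := ∑ m ∈ range n, z ^ m / (m ! : ℂ)

theorem norm_exp_sub_expPoly_le (x : ℝ) (n : ℕ) :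
    ‖exp (x * I) - expPoly n (x * I)‖ ≤ 2 * ((4 * |x|) ^ n / (n ! : ℝ)) := by
  have hn : ‖(x : ℂ) * I‖ = |x| := by simp
  rcases n.eq_zero_or_pos with rfl | hn0
  · simp [expPoly, norm_exp_ofReal_mul_I]
  have hfac : (0 : ℝ) < (n ! : ℝ) := Nat.cast_pos.2 n.factorial_pos
  by_cases hx : |x| / n.succ ≤ 1 / 2
  · refine (exp_bound' (x := (x : ℂ) * I) (n := n) (by rwa [hn])).trans ?_
    rw [hn, mul_comm]
    gcongr
    linarith [abs_nonneg x]
  · rw [not_le, lt_div_iff₀ (by positivity)] at hx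
    push_cast at hx
    have hterm : ∀ m ∈ range n, |x| ^ m / (m ! : ℝ) ≤ (2 * |x|) ^ n / (n ! : ℝ) := fun m hm => by
      have hmn := (mem_range.1 hm).le
      rw [div_le_div_iff₀ (Nat.cast_pos.2 m.factorial_pos) hfac]
      have h1 : (n ! : ℝ) ≤ (m ! : ℝ) * (n : ℝ) ^ (n - m) := by
        have h := Nat.factorial_mul_descFactorial (show n - m ≤ n from Nat.sub_le n m)
        rw [Nat.sub_sub_self hmn] at h
        exact_mod_cast h ▸ Nat.mul_le_mul_left _ (Nat.descFactorial_le_pow n (n - m))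
      have h2 : (n : ℝ) ^ (n - m) ≤ (2 * |x|) ^ (n - m) :=
        pow_le_pow_left₀ (Nat.cast_nonneg n) (by linarith) _
      calc |x| ^ m * (n ! : ℝ) ≤ |x| ^ m * ((m ! : ℝ) * (2 * |x|) ^ (n - m)) :=
            mul_le_mul_of_nonneg_left
              (h1.trans (mul_le_mul_of_nonneg_left h2 (Nat.cast_nonneg _))) (by positivity)
        _ ≤ (2 * |x|) ^ m * ((m ! : ℝ) * (2 * |x|) ^ (n - m)) := by
            gcongr
            linarith [abs_nonneg x]
        _ = (2 * |x|) ^ n * (m ! : ℝ) := by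
            rw [mul_left_comm, ← pow_add, Nat.add_sub_cancel' hmn, mul_comm]
    have hsum : ∑ m ∈ range n, |x| ^ m / (m ! : ℝ) ≤ n * ((2 * |x|) ^ n / (n ! : ℝ)) := by
      simpa using sum_le_sum hterm
    have hone : 1 ≤ (n : ℝ) * ((2 * |x|) ^ n / (n ! : ℝ)) := by
      refine le_trans ?_ hsum
      exact le_trans (by simp) (single_le_sum (f := fun m => |x| ^ m / (m ! : ℝ))
        (fun m _ => by positivity) (mem_range.2 hn0))
    have h4 : (n : ℝ) * (2 * |x|) ^ n ≤ (4 * |x|) ^ n := by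
      rw [show (4 : ℝ) * |x| = 2 * (2 * |x|) by ring, mul_pow (2 : ℝ) (2 * |x|)]
      gcongr
      exact_mod_cast Nat.lt_two_pow_self.le
    have h5 : (n : ℝ) * ((2 * |x|) ^ n / (n ! : ℝ)) ≤ (4 * |x|) ^ n / (n ! : ℝ) := by
      rw [← mul_div_assoc]
      exact div_le_div_of_nonneg_right h4 hfac.le
    refine (norm_sub_le _ _).trans ?_
    rw [norm_exp_ofReal_mul_I]
    have h6 : ‖expPoly n ((x : ℂ) * I)‖ ≤ ∑ m ∈ range n, |x| ^ m / (m ! : ℝ) :=
      (norm_sum_le _ _).trans (le_of_eq (sum_congr rfl fun m _ => by simp))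
    linarith

theorem real_exp_le (x : ℝ) : Real.exp x ≤ 1 + x + x ^ 2 * Real.exp |x| := by
  have h1 : 1 ≤ Real.exp |x| := Real.one_le_exp (abs_nonneg x)
  rcases le_or_gt |x| 1 with h | h
  · have := (abs_le.1 (Real.abs_exp_sub_one_sub_id_le h)).2
    nlinarith [sq_nonneg x]
  · have h2 : |x| ≤ x ^ 2 := by rw [← sq_abs]; nlinarith
    have h3 := mul_le_mul_of_nonneg_right h2 (zero_le_one.trans h1)
    have h4 : Real.exp x ≤ Real.exp |x| := Real.exp_le_exp.2 (le_abs_self x)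
    have h5 := Real.add_one_le_exp |x|
    rcases le_or_gt 0 x with hx | hx
    · nlinarith [sq_nonneg x, abs_of_nonneg hx]
    · have h6 : Real.exp x ≤ 1 := Real.exp_le_one_iff.2 hx.le
      nlinarith [abs_of_neg hx]

/-- The generating function of the model is sub-Gaussian. -/
theorem modelReal_exp_le {P : Finset ℕ} (hP : ∀ q ∈ P, q.Prime) (c : ℕ → ℝ) {M : ℝ}
    (hM : ∀ q ∈ P, |c q| ≤ M) (a : ℝ) :
    modelReal P (fun T => Real.exp (a * centredSum c P T)) ≤
      Real.exp (Real.exp (|a| * M) * a ^ 2 * ∑ q ∈ P, c q ^ 2 / q) := by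
  have he : ∀ T : Finset ℕ, Real.exp (a * centredSum c P T) = ∏ q ∈ P,
      if q ∈ T then Real.exp (a * (c q * (1 - (q : ℝ)⁻¹))) else
        Real.exp (a * (c q * (0 - (q : ℝ)⁻¹))) := fun T => by
    rw [centredSum, mul_sum, Real.exp_sum]
    exact prod_congr rfl fun q _ => by split_ifs <;> rfl
  simp only [he]
  rw [modelReal_prod, mul_sum, Real.exp_sum]
  refine prod_le_prod (fun q hq => ?_) fun q hq => ?_
  · have := inv_le_one_of_one_le₀ (Nat.one_le_cast.2 (hP q hq).one_le : (1 : ℝ) ≤ q)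
    exact add_nonneg (by positivity) (mul_nonneg (by linarith) (Real.exp_nonneg _))
  · set u := (q : ℝ)⁻¹ with hu
    have hu0 : 0 ≤ u := by positivity
    have hu1 : u ≤ 1 := inv_le_one_of_one_le₀ (Nat.one_le_cast.2 (hP q hq).one_le : (1 : ℝ) ≤ q)
    have key : ∀ v : ℝ, |v| ≤ 1 → Real.exp (a * (c q * v)) ≤
        1 + a * (c q * v) + Real.exp (|a| * M) * a ^ 2 * (c q ^ 2 * v ^ 2) := fun v hv => by
      refine (real_exp_le _).trans (add_le_add le_rfl ?_)
      have h : |a * (c q * v)| ≤ |a| * M := by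
        rw [abs_mul, abs_mul]
        exact mul_le_mul_of_nonneg_left ((mul_le_of_le_one_right (abs_nonneg _) hv).trans (hM q hq))
          (abs_nonneg a)
      refine (mul_le_mul_of_nonneg_left (Real.exp_le_exp.2 h) (sq_nonneg _)).trans_eq ?_
      ring
    have k1 := key (1 - u) (abs_le.2 ⟨by linarith, by linarith⟩)
    have k0 := key (0 - u) (abs_le.2 ⟨by linarith, by linarith⟩)
    set E := Real.exp (|a| * M) * a ^ 2 with hE
    have hE0 : 0 ≤ E := by positivity
    refine le_trans ?_ ((add_comm (1 : ℝ) _).trans_le (Real.add_one_le_exp _))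
    rw [div_eq_mul_inv, ← hu]
    have h := add_le_add (mul_le_mul_of_nonneg_left k1 hu0)
      (mul_le_mul_of_nonneg_left k0 (sub_nonneg.2 hu1))
    have h7 : 0 ≤ E * (c q ^ 2 * u ^ 2) := by positivity
    linear_combination h + h7

theorem modelReal_pow_le {P : Finset ℕ} (hP : ∀ q ∈ P, q.Prime) (c : ℕ → ℝ) {M : ℝ}
    (hM : ∀ q ∈ P, |c q| ≤ M) {n : ℕ} (hn : Even n) {a : ℝ} (ha : 0 ≤ a) :
    a ^ n / (n ! : ℝ) * modelReal P (fun T => centredSum c P T ^ n) ≤
      2 * Real.exp (Real.exp (a * M) * a ^ 2 * ∑ q ∈ P, c q ^ 2 / q) := by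
  have h1 := modelReal_exp_le hP c hM a
  have h2 := modelReal_exp_le hP c hM (-a)
  rw [abs_of_nonneg ha] at h1
  rw [abs_neg, abs_of_nonneg ha, neg_sq] at h2
  refine le_trans ?_ ((add_le_add h1 h2).trans_eq (two_mul _).symm)
  simp only [modelReal, mul_sum, ← sum_add_distrib]
  refine sum_le_sum fun T _ => ?_
  rw [← mul_add, mul_left_comm]
  refine mul_le_mul_of_nonneg_left ?_ (subsetWeight_nonneg hP T)
  set S := centredSum c P T
  have h3 := Real.pow_div_factorial_le_exp (a * |S|) (by positivity) n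
  rw [mul_pow, hn.pow_abs] at h3
  calc a ^ n / (n ! : ℝ) * S ^ n = a ^ n * S ^ n / (n ! : ℝ) := div_mul_eq_mul_div _ _ _
    _ ≤ Real.exp (a * |S|) := h3
    _ ≤ Real.exp (a * S) + Real.exp (-a * S) := by
        rcases abs_choice S with e | e <;> rw [e]
        · exact le_add_of_nonneg_right (Real.exp_nonneg _)
        · rw [mul_neg, ← neg_mul]
          exact le_add_of_nonneg_left (Real.exp_nonneg _)

/-- **The integers follow the model.** -/
theorem norm_intMean_sub_modelMean_le {P : Finset ℕ} (hP : ∀ q ∈ P, q.Prime) (c : ℕ → ℝ)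
    {N : ℕ} (hN : 0 < N) (t : ℝ) {n : ℕ} (hn : Even n) :
    ‖intMean N P (fun T => exp ((t * centredSum c P T : ℝ) * I)) -
        modelMean P (fun T => exp ((t * centredSum c P T : ℝ) * I))‖ ≤
      (∑ m ∈ range n, |t| ^ m / (m ! : ℝ) * ((2 * ∑ q ∈ P, |c q|) ^ m / N)) +
        2 * (4 * |t|) ^ n / (n ! : ℝ) * ((2 * ∑ q ∈ P, |c q|) ^ n / N) +
          4 * ((4 * |t|) ^ n / (n ! : ℝ) * modelReal P fun T => centredSum c P T ^ n) := by
  set S := centredSum c P with hS
  set E := fun T => exp ((t * S T : ℝ) * I) with hE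
  set p := fun T => expPoly n ((t * S T : ℝ) * I) with hp
  have hr : ∀ T, ‖E T - p T‖ ≤ 2 * ((4 * |t|) ^ n / (n ! : ℝ) * S T ^ n) := fun T => by
    refine (norm_exp_sub_expPoly_le _ n).trans_eq ?_
    rw [abs_mul, ← mul_assoc 4, mul_pow _ |S T|, hn.pow_abs (S T)]
    ring
  have i1 : ‖intMean N P E - intMean N P p‖ ≤
      2 * ((4 * |t|) ^ n / (n ! : ℝ) * intReal N P fun T => S T ^ n) := by
    rw [intMean, intMean, ← sub_div, ← sum_sub_distrib, norm_div, Complex.norm_natCast, intReal,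
      mul_div_assoc', mul_div_assoc', mul_sum, mul_sum]
    exact div_le_div_of_nonneg_right ((norm_sum_le _ _).trans (sum_le_sum fun k _ => hr _))
      (Nat.cast_nonneg N)
  have i2 : ‖modelMean P E - modelMean P p‖ ≤
      2 * ((4 * |t|) ^ n / (n ! : ℝ) * modelReal P fun T => S T ^ n) := by
    rw [modelMean, modelMean, ← sum_sub_distrib, modelReal, mul_sum, mul_sum]
    refine (norm_sum_le _ _).trans (sum_le_sum fun T _ => ?_)
    rw [← mul_sub, norm_mul, Complex.norm_real, Real.norm_eq_abs,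
      abs_of_nonneg (subsetWeight_nonneg hP T)]
    refine (mul_le_mul_of_nonneg_left (hr T) (subsetWeight_nonneg hP T)).trans_eq ?_
    ring
  have i3 : intMean N P p - modelMean P p = ∑ m ∈ range n, ((t : ℂ) * I) ^ m / (m ! : ℂ) *
      ((intReal N P (fun T => S T ^ m) - modelReal P fun T => S T ^ m : ℝ) : ℂ) := by
    simp only [intMean, modelMean, intReal, modelReal, hp, expPoly, ofReal_sub, ofReal_div,
      ofReal_sum, ofReal_mul, ofReal_natCast, ofReal_pow, mul_sub, sum_sub_distrib]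
    congr 1
    · rw [sum_comm, sum_div]
      refine sum_congr rfl fun m _ => ?_
      rw [mul_div_assoc', mul_sum]
      exact congrArg (· / (N : ℂ)) (sum_congr rfl fun k _ => by ring)
    · simp only [mul_sum]
      rw [sum_comm]
      exact sum_congr rfl fun m _ => sum_congr rfl fun T _ => by ring
  have i4 : ‖intMean N P p - modelMean P p‖ ≤
      ∑ m ∈ range n, |t| ^ m / (m ! : ℝ) * ((2 * ∑ q ∈ P, |c q|) ^ m / N) := by
    rw [i3]
    refine (norm_sum_le _ _).trans (sum_le_sum fun m _ => ?_)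
    rw [norm_mul, norm_div, norm_pow, norm_mul, norm_I, mul_one, Complex.norm_real,
      Complex.norm_real, Real.norm_eq_abs, Real.norm_eq_abs, Complex.norm_natCast]
    exact mul_le_mul_of_nonneg_left (abs_moment_sub_le hP c N m hN) (by positivity)
  have i5 := mul_le_mul_of_nonneg_left
    (abs_le.1 (abs_moment_sub_le hP c N n hN)).2
    (show 0 ≤ (4 * |t|) ^ n / (n ! : ℝ) by positivity)
  rw [← hS] at i5
  have t1 := norm_sub_le_norm_sub_add_norm_sub (intMean N P E) (intMean N P p) (modelMean P E)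
  have t2 := norm_sub_le_norm_sub_add_norm_sub (intMean N P p) (modelMean P p) (modelMean P E)
  rw [norm_sub_rev (modelMean P p)] at t2
  rw [mul_div_assoc 2, mul_assoc 2]
  linarith

/-- **The model is nearly normal.** -/
theorem norm_modelMean_sub_exp_le {P : Finset ℕ} (hP : ∀ q ∈ P, q.Prime) (c : ℕ → ℝ) (t : ℝ) :
    ‖modelMean P (fun T => exp ((t * centredSum c P T : ℝ) * I)) -
        Real.exp (-(t ^ 2 * ∑ q ∈ P, c q ^ 2 * ((q : ℝ)⁻¹ * (1 - (q : ℝ)⁻¹))) / 2)‖ ≤
      ∑ q ∈ P, (8 * |t * c q| ^ 3 + (t * c q) ^ 4 / 4) / q := by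
  have he : ∀ T : Finset ℕ, exp ((t * centredSum c P T : ℝ) * I) = ∏ q ∈ P,
      if q ∈ T then exp ((t * c q * (1 - (q : ℝ)⁻¹) : ℝ) * I) else
        exp ((t * c q * (0 - (q : ℝ)⁻¹) : ℝ) * I) := fun T => by
    rw [centredSum, mul_sum, ofReal_sum, sum_mul, exp_sum]
    exact prod_congr rfl fun q _ => by split_ifs <;> rw [mul_assoc t]
  simp only [he]
  rw [modelMean_prod, mul_sum, ← sum_neg_distrib, sum_div, Real.exp_sum, ofReal_prod]
  refine (norm_prod_sub_le P _ _ (fun q hq => ?_) fun q hq => ?_).trans (sum_le_sum fun q hq => ?_)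
  all_goals
    have hu0 : 0 ≤ (q : ℝ)⁻¹ := by positivity
    have hu1 : (q : ℝ)⁻¹ ≤ 1 :=
      inv_le_one_of_one_le₀ (Nat.one_le_cast.2 (hP q hq).one_le : (1 : ℝ) ≤ q)
  · refine (norm_add_le _ _).trans_eq ?_
    rw [norm_mul, norm_mul, norm_exp_ofReal_mul_I, norm_exp_ofReal_mul_I, mul_one, mul_one,
      show (1 : ℂ) - (q : ℂ)⁻¹ = ((1 - (q : ℝ)⁻¹ : ℝ) : ℂ) by push_cast; ring, Complex.norm_real,
      Real.norm_eq_abs, abs_of_nonneg (sub_nonneg.2 hu1), norm_inv, Complex.norm_natCast]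
    ring
  · rw [Complex.norm_real, Real.norm_eq_abs, Real.abs_exp, Real.exp_le_one_iff]
    have := mul_nonneg (mul_nonneg (sq_nonneg t) (sq_nonneg (c q)))
      (mul_nonneg hu0 (sub_nonneg.2 hu1))
    linarith
  · set u := (q : ℝ)⁻¹ with hu
    set s := t * c q with hs
    set w := u * (1 - u) with hw
    have e : (q : ℂ)⁻¹ * exp ((s * (1 - u) : ℝ) * I) +
        (1 - (q : ℂ)⁻¹) * exp ((s * (0 - u) : ℝ) * I) -
          (Real.exp (-(t ^ 2 * (c q ^ 2 * w)) / 2) : ℂ) =
        ((u : ℂ) * expRem (s * (1 - u)) + ((1 - u : ℝ) : ℂ) * expRem (s * (0 - u))) -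
          (((Real.exp (-(s ^ 2 * w / 2)) - (1 - s ^ 2 * w / 2) : ℝ)) : ℂ) := by
      rw [show (q : ℂ)⁻¹ = (u : ℂ) by rw [hu]; push_cast; rfl,
        show -(t ^ 2 * (c q ^ 2 * w)) / 2 = -(s ^ 2 * w / 2) by rw [hs]; ring, expRem, expRem, hw]
      push_cast
      ring
    rw [e]
    refine (norm_sub_le _ _).trans ?_
    rw [Complex.norm_real, Real.norm_eq_abs]
    refine (add_le_add ((norm_add_le _ _).trans (add_le_add (norm_mul _ _).le (norm_mul _ _).le))
      (abs_exp_neg_sub_le (a := s ^ 2 * w / 2) (by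
        have : 0 ≤ w := mul_nonneg hu0 (sub_nonneg.2 hu1)
        positivity))).trans ?_
    simp only [Complex.norm_real, Real.norm_eq_abs, abs_of_nonneg hu0,
      abs_of_nonneg (sub_nonneg.2 hu1)]
    have b1 := (norm_expRem_le (s * (1 - u))).1
    have b0 := (norm_expRem_le (s * (0 - u))).1
    rw [abs_mul, mul_pow, abs_of_nonneg (sub_nonneg.2 hu1)] at b1
    rw [abs_mul, mul_pow, zero_sub, abs_neg, abs_of_nonneg hu0] at b0
    have c1 := mul_le_mul_of_nonneg_left b1 hu0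
    have c0 := mul_le_mul_of_nonneg_left b0 (sub_nonneg.2 hu1)
    have d1 : (1 - u) ^ 3 ≤ 1 := pow_le_one₀ (sub_nonneg.2 hu1) (by linarith)
    have d0 : u ^ 3 ≤ u := pow_le_of_le_one hu0 hu1 (by norm_num)
    have d2 : w ^ 2 ≤ u := by
      rw [hw, mul_pow]
      exact (mul_le_of_le_one_right (sq_nonneg u) (pow_le_one₀ (sub_nonneg.2 hu1)
        (by linarith))).trans
        (pow_le_of_le_one hu0 hu1 (by norm_num))
    have hs3 : 0 ≤ |s| ^ 3 := by positivity
    rw [div_eq_mul_inv (8 * |s| ^ 3 + s ^ 4 / 4), ← hu]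
    rw [zero_sub]
    have g1 : u * (4 * (|s| ^ 3 * (1 - u) ^ 3)) ≤ u * (4 * |s| ^ 3) :=
      mul_le_mul_of_nonneg_left
        (mul_le_mul_of_nonneg_left (mul_le_of_le_one_right hs3 d1) (by norm_num)) hu0
    have g0 : (1 - u) * (4 * (|s| ^ 3 * u ^ 3)) ≤ 4 * (|s| ^ 3 * u) :=
      (mul_le_of_le_one_left (by positivity) (by linarith)).trans
        (mul_le_mul_of_nonneg_left (mul_le_mul_of_nonneg_left d0 hs3) (by norm_num))
    have g2 : (s ^ 2 * w / 2) ^ 2 ≤ s ^ 4 / 4 * u := by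
      rw [div_pow, mul_pow, ← pow_mul]
      have := mul_le_mul_of_nonneg_left d2 (show 0 ≤ s ^ 4 by positivity)
      norm_num
      linarith
    linarith

end FA.AdditiveErdosKac
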