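import Fermat.Agent.AdditiveErdosKac.Truncation
import Fermat.Agent.AdditiveErdosKac.Classes
import Mathlib.Probability.Distributions.Gaussian.Real

/-!
# Additive functions, prime factors with multiplicity, prime factors in a class
-/

set_option autoImplicit false

noncomputable section

namespace FA.AdditiveErdosKac

open Finset Filter Topology MeasureTheory ProbabilityTheory
open FA.ErdosKac (primesUpTo mem_primesUpTo recipSum loglog tendsto_loglog sum_inv_sq_le)
open scoped NNReal

/-- The proportion of `n ≤ N` with `P n`. -/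
def share (N : ℕ) (P : ℕ → Prop) [DecidablePred P] : ℝ := (((Icc 1 N).filter P).card : ℝ) / N

/-- The standard normal distribution function. -/
def normalCdf (x : ℝ) : ℝ := (gaussianReal 0 1).real (Set.Iic x)

/-- The empirical law of `u N`. -/
def spreadMeasure (u : ℕ → ℕ → ℝ) (N : ℕ) : Measure ℝ :=
  ((N + 1 : ℕ) : ENNReal)⁻¹ • ∑ n ∈ Icc 1 (N + 1), Measure.dirac (u (N + 1) n)

instance isProbabilityMeasure_spreadMeasure (u : ℕ → ℕ → ℝ) (N : ℕ) :
    IsProbabilityMeasure (spreadMeasure u N) := by
  refine ⟨?_⟩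
  rw [spreadMeasure, Measure.smul_apply, Measure.finsetSum_apply, smul_eq_mul]
  simp only [measure_univ, sum_const, Nat.card_Icc, Nat.add_sub_cancel, nsmul_one]
  exact ENNReal.inv_mul_cancel (by simp) (ENNReal.natCast_ne_top _)

theorem charFun_spreadMeasure (u : ℕ → ℕ → ℝ) (N : ℕ) (t : ℝ) :
    charFun (spreadMeasure u N) t = waveMean (N + 1) fun n => t * u (N + 1) n := by
  rw [charFun_apply_real, spreadMeasure, integral_smul_measure,
    integral_finsetSum_measure fun n _ => integrable_dirac (by simp), waveMean]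
  simp only [integral_dirac]
  rw [ENNReal.toReal_inv, ENNReal.toReal_natCast, Complex.real_smul, div_eq_inv_mul]
  push_cast
  rfl

theorem tendsto_share_le (u : ℕ → ℕ → ℝ)
    (h : ∀ t : ℝ, Tendsto (fun N => waveMean N fun n => t * u N n) atTop
      (𝓝 (Real.exp (-t ^ 2 / 2) : ℂ))) (x : ℝ) :
    Tendsto (fun N => share N fun n => u N n ≤ x) atTop (𝓝 (normalCdf x)) := by
  rw [← tendsto_add_atTop_iff_nat 1]
  let μs : ℕ → ProbabilityMeasure ℝ := fun N => ⟨spreadMeasure u N, inferInstance⟩
  let μ : ProbabilityMeasure ℝ := ⟨gaussianReal 0 1, inferInstance⟩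
  have hconv : Tendsto μs atTop (𝓝 μ) := by
    refine ProbabilityMeasure.tendsto_iff_tendsto_charFun.2 fun t => ?_
    show Tendsto (fun N => charFun (spreadMeasure u N) t) atTop
      (𝓝 (charFun (gaussianReal 0 1) t))
    simp only [charFun_spreadMeasure]
    have h' := (h t).comp (tendsto_add_atTop_nat 1)
    simpa [charFun_gaussianReal, neg_div, Function.comp_def] using h'
  have hnull : (μ : Measure ℝ) (frontier (Set.Iic x)) = 0 := by
    have := nullSingletonClass_gaussianReal (μ := 0) (one_ne_zero : (1 : NNReal) ≠ 0)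
    rw [frontier_Iic]
    show (gaussianReal 0 1) {x} = 0
    exact measure_singleton x
  have hm := (ENNReal.tendsto_toReal (measure_ne_top _ _)).comp
    (ProbabilityMeasure.tendsto_measure_of_null_frontier_of_tendsto' hconv hnull)
  refine hm.congr fun N => ?_
  simp only [Function.comp_apply]
  show ((spreadMeasure u N) (Set.Iic x)).toReal = _
  rw [spreadMeasure, Measure.smul_apply, Measure.finsetSum_apply, smul_eq_mul, ENNReal.toReal_mul,
    ENNReal.toReal_inv, ENNReal.toReal_natCast, share, div_eq_inv_mul, card_filter]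
  congr 1
  simp only [Measure.dirac_apply' _ measurableSet_Iic, Set.indicator_apply, Set.mem_Iic,
    Pi.one_apply]
  rw [ENNReal.toReal_sum fun _ _ => by split_ifs <;> simp, Nat.cast_sum]
  exact sum_congr rfl fun n _ => by split_ifs <;> simp

theorem abs_normalCdf_sub_le {a b : ℝ} (hab : a ≤ b) :
    normalCdf a ≤ normalCdf b ∧ normalCdf b ≤ normalCdf a + (b - a) := by
  refine ⟨measureReal_mono (Set.Iic_subset_Iic.2 hab), ?_⟩
  have e : normalCdf b = normalCdf a + (gaussianReal 0 1).real (Set.Ioc a b) := by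
    rw [normalCdf, normalCdf, ← measureReal_union (Set.Iic_disjoint_Ioc le_rfl) measurableSet_Ioc,
      Set.Iic_union_Ioc_eq_Iic hab]
  rw [e, add_le_add_iff_left]
  have h : gaussianReal 0 1 (Set.Ioc a b) ≤ ENNReal.ofReal (b - a) := by
    rw [← Real.volume_Ioc, gaussianReal_apply 0 one_ne_zero]
    refine (setLIntegral_mono measurable_const fun y _ => ?_).trans_eq (setLIntegral_one _)
    rw [gaussianPDF, ENNReal.ofReal_le_one, gaussianPDFReal]
    refine mul_le_one₀ (inv_le_one_of_one_le₀ ?_) (Real.exp_nonneg _)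
      (Real.exp_le_one_iff.2 ?_)
    · rw [Real.one_le_sqrt]
      push_cast
      linarith [Real.two_le_pi]
    · exact div_nonpos_of_nonpos_of_nonneg (neg_nonpos.2 (sq_nonneg _)) (by positivity)
  exact ENNReal.toReal_le_of_le_ofReal (sub_nonneg.2 hab) h

/-- Changes of centre and scale which disappear in the limit. -/
theorem tendsto_share_affine (u v : ℕ → ℕ → ℝ) (α β : ℕ → ℝ)
    (hu : ∀ x, Tendsto (fun N => share N fun n => u N n ≤ x) atTop (𝓝 (normalCdf x)))
    (hα : Tendsto α atTop (𝓝 1)) (hβ : Tendsto β atTop (𝓝 0))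
    (hv : ∀ᶠ N in atTop, ∀ n, v N n = α N * u N n + β N) (x : ℝ) :
    Tendsto (fun N => share N fun n => v N n ≤ x) atTop (𝓝 (normalCdf x)) := by
  have hxN : Tendsto (fun N => (x - β N) / α N) atTop (𝓝 x) := by
    simpa [Pi.div_def] using (hβ.const_sub x).div hα one_ne_zero
  refine Metric.tendsto_nhds.2 fun η hη => ?_
  filter_upwards [hv, hα.eventually_const_lt one_pos,
    Metric.tendsto_nhds.1 hxN (η / 3) (by positivity),
    Metric.tendsto_nhds.1 (hu (x - η / 3)) (η / 3) (by positivity),
    Metric.tendsto_nhds.1 (hu (x + η / 3)) (η / 3) (by positivity)] with N hN ha hx hl hr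
  rw [Real.dist_eq, abs_lt] at hx hl hr ⊢
  have m1 : share N (fun n => u N n ≤ x - η / 3) ≤ share N fun n => v N n ≤ x := by
    refine div_le_div_of_nonneg_right (Nat.cast_le.2 (card_le_card fun n hn => ?_))
      (Nat.cast_nonneg _)
    simp only [mem_filter] at hn ⊢
    refine ⟨hn.1, ?_⟩
    have h : u N n ≤ (x - β N) / α N := hn.2.trans (by linarith)
    rw [le_div_iff₀ ha] at h
    rw [hN n]
    linarith
  have m2 : share N (fun n => v N n ≤ x) ≤ share N fun n => u N n ≤ x + η / 3 := by
    refine div_le_div_of_nonneg_right (Nat.cast_le.2 (card_le_card fun n hn => ?_))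
      (Nat.cast_nonneg _)
    simp only [mem_filter] at hn ⊢
    refine ⟨hn.1, ?_⟩
    have h : u N n ≤ (x - β N) / α N := by
      rw [le_div_iff₀ ha]
      have := hn.2
      rw [hN n] at this
      linarith
    linarith
  obtain ⟨-, l2⟩ := abs_normalCdf_sub_le (show x - η / 3 ≤ x by linarith)
  obtain ⟨-, r2⟩ := abs_normalCdf_sub_le (show x ≤ x + η / 3 by linarith)
  constructor <;> linarith

variable {f : ℕ → ℝ} (hadd : ∀ m n : ℕ, m.Coprime n → f (m * n) = f m + f n)
include hadd

theorem additive_one : f 1 = 0 := by simpa using hadd 1 1 (Nat.coprime_one_left 1)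

theorem additive_eq_sum {n : ℕ} (hn : n ≠ 0) :
    f n = ∑ q ∈ n.primeFactors, f (q ^ n.factorization q) := by
  have h : ∀ s : Finset ℕ, (∀ q ∈ s, q.Prime) → ∀ e : ℕ → ℕ,
      f (∏ q ∈ s, q ^ e q) = ∑ q ∈ s, f (q ^ e q) := by
    intro s
    induction s using Finset.cons_induction with
    | empty => exact fun _ _ => by simpa using additive_one hadd
    | cons p s hp ih =>
      intro hs e
      rw [prod_cons, sum_cons, hadd _ _ (Nat.Coprime.prod_right fun q hq => ?_),
        ih (fun q hq => hs q (mem_cons_of_mem hq)) e]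
      exact Nat.Coprime.pow _ _ ((Nat.coprime_primes (hs p (mem_cons_self p s))
        (hs q (mem_cons_of_mem hq))).2 fun h => hp (h ▸ hq))
  have e := h n.primeFactors (fun q hq => Nat.prime_of_mem_primeFactors hq) n.factorization
  rwa [show ∏ q ∈ n.primeFactors, q ^ n.factorization q = n from
    Nat.prod_factorization_pow_eq_self hn] at e

variable (hf : ∀ p k : ℕ, p.Prime → 1 ≤ k → |f (p ^ k)| ≤ k)
include hf

theorem sum_abs_sub_strong_le (N : ℕ) :
    ∑ n ∈ Icc 1 N, |f n - ∑ q ∈ n.primeFactors, f q| ≤ 6 * N := by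
  have hle : ∀ n ∈ Icc 1 N, |f n - ∑ q ∈ n.primeFactors, f q| ≤
      3 * ∑ q ∈ primesUpTo N, ∑ k ∈ Icc 2 N, if q ^ k ∣ n then (1 : ℝ) else 0 := by
    intro n hn
    rw [mem_Icc] at hn
    have hn0 : n ≠ 0 := by omega
    rw [additive_eq_sum hadd hn0, ← sum_sub_distrib, mul_sum]
    refine (abs_sum_le_sum_abs _ _).trans (le_trans (sum_le_sum fun q hq => ?_)
      (sum_le_sum_of_subset_of_nonneg (fun q hq => mem_primesUpTo.2
        ⟨Nat.prime_of_mem_primeFactors hq, (Nat.le_of_mem_primeFactors hq).trans hn.2⟩)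
        fun q _ _ => mul_nonneg (by norm_num) (sum_nonneg fun k _ => by split_ifs <;> norm_num)))
    have hqp := Nat.prime_of_mem_primeFactors hq
    have hv1 : 1 ≤ n.factorization q :=
      hqp.factorization_pos_of_dvd hn0 (Nat.dvd_of_mem_primeFactors hq)
    rcases hv1.eq_or_lt with h1 | h2
    · rw [← h1, pow_one, sub_self, abs_zero]
      exact mul_nonneg (by norm_num) (sum_nonneg fun k _ => by split_ifs <;> norm_num)
    · set v := n.factorization q with hv
      have hvN : v ≤ N := (Nat.factorization_lt q hn0).le.trans hn.2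
      have hcard : ((Icc 2 N).filter fun k => q ^ k ∣ n) = Icc 2 v := by
        ext k
        rw [mem_filter, mem_Icc, mem_Icc, hqp.pow_dvd_iff_le_factorization hn0]
        omega
      have hfq : |f q| ≤ 1 := by simpa using hf q 1 hqp le_rfl
      rw [sum_boole, hcard, Nat.card_Icc, Nat.cast_sub (by omega)]
      have h3 := (abs_sub (f (q ^ v)) (f q)).trans (add_le_add (hf q v hqp hv1) hfq)
      have h2' : (2 : ℝ) ≤ v := Nat.ofNat_le_cast.2 h2
      push_cast
      linarith
  refine (sum_le_sum hle).trans ?_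
  rw [← mul_sum, sum_comm, show (6 : ℝ) * N = 3 * (2 * N * 1) by ring]
  refine mul_le_mul_of_nonneg_left (le_trans ?_ (mul_le_mul_of_nonneg_left
    (sum_inv_sq_le (primesUpTo N) fun q hq => (mem_primesUpTo.1 hq).1) (by positivity)))
    (by norm_num)
  rw [mul_sum]
  refine sum_le_sum fun q hq => ?_
  have hq2 : (2 : ℝ) ≤ q := Nat.ofNat_le_cast.2 (mem_primesUpTo.1 hq).1.two_le
  rw [sum_comm]
  refine (sum_le_sum (g := fun k => (N : ℝ) * ((q : ℝ)⁻¹) ^ k) fun k _ => ?_).trans ?_
  · rw [sum_boole, show Icc 1 N = Ioc 0 N from rfl, Nat.Ioc_filter_dvd_card_eq_div, inv_pow,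
      ← div_eq_mul_inv, ← Nat.cast_pow]
    exact Nat.cast_div_le
  · rw [← mul_sum, show 2 * (N : ℝ) * (q : ℝ)⁻¹ ^ 2 = N * (2 * (q : ℝ)⁻¹ ^ 2) by ring]
    refine mul_le_mul_of_nonneg_left ?_ (Nat.cast_nonneg N)
    have hu : (q : ℝ)⁻¹ ≤ 1 / 2 := by
      rw [one_div]; exact inv_anti₀ two_pos hq2
    have hu0 : 0 ≤ (q : ℝ)⁻¹ := by positivity
    rw [show Icc 2 N = Ico 2 (N + 1) from rfl, sum_Ico_eq_sum_range]
    simp only [pow_add, ← mul_sum]
    rw [mul_comm 2]
    refine mul_le_mul_of_nonneg_left ?_ (by positivity)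
    exact (sum_le_sum fun k _ => pow_le_pow_left₀ hu0 hu k).trans (sum_geometric_two_le _)

variable (hdiv : Tendsto (varOf f) atTop atTop)
include hdiv

/-- **Erdős and Kac for additive functions.** -/
theorem tendsto_share_additive (x : ℝ) :
    Tendsto (fun N => share N fun n => (f n - meanOf f N) / √(varOf f N) ≤ x) atTop
      (𝓝 (normalCdf x)) := by
  refine tendsto_share_le _ (fun t => ?_) x
  have h0 : Tendsto (fun N => waveMean N (fun n => t * ((f n - meanOf f N) / √(varOf f N))) -
      waveMean N (fun n => t * ((∑ q ∈ n.primeFactors, f q) - meanOf f N) / √(varOf f N)))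
      atTop (𝓝 0) := by
    refine squeeze_zero_norm' ?_ (by simpa using ((Real.tendsto_sqrt_atTop.comp
      hdiv).inv_tendsto_atTop.const_mul (6 * |t|)))
    filter_upwards [hdiv.eventually_gt_atTop 0, eventually_gt_atTop 0] with N hv hN
    have hB : 0 < √(varOf f N) := Real.sqrt_pos.2 hv
    refine (norm_waveMean_sub_le N _ _).trans ?_
    rw [div_le_iff₀ (Nat.cast_pos.2 hN)]
    refine (sum_le_sum (g := fun n => |t| / √(varOf f N) * |f n - ∑ q ∈ n.primeFactors, f q|)
      fun n _ => ?_).trans ?_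
    · rw [mul_div_assoc, ← mul_sub, ← sub_div, abs_mul, abs_div, abs_of_pos hB,
        sub_sub_sub_cancel_right, div_mul_eq_mul_div, ← mul_div_assoc]
    · rw [← mul_sum]
      refine (mul_le_mul_of_nonneg_left (sum_abs_sub_strong_le hadd hf N) (by positivity)).trans_eq
        ?_
      rw [div_eq_mul_inv]
      ring
  have h1 := h0.add (tendsto_waveMean_strong
    (fun q hq => by simpa using hf q 1 hq le_rfl) hdiv t)
  simpa using h1

omit hadd hf hdiv

theorem tendsto_recipSum : Tendsto recipSum atTop atTop := by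
  obtain ⟨C, hC⟩ := FA.ErdosKac.exists_abs_recipSum_sub_le
  refine tendsto_atTop_mono' _ ?_ (tendsto_atTop_add_const_right _ (-C) tendsto_loglog)
  filter_upwards [eventually_ge_atTop 2] with N hN
  have := (abs_le.1 (hC N hN)).1
  rw [loglog]
  linarith

open scoped ArithmeticFunction.Omega in
/-- **Prime factors with multiplicity.** -/
theorem tendsto_share_bigOmega (x : ℝ) :
    Tendsto (fun N => share N fun n => ((Ω n : ℝ) - loglog N) / √(loglog N) ≤ x) atTop
      (𝓝 (normalCdf x)) := by
  classical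
  set f : ℕ → ℝ := fun n => if n = 0 then 0 else (Ω n : ℝ) with hf
  have hfp : ∀ p k : ℕ, p.Prime → f (p ^ k) = k := fun p k hp => by
    simp [hf, hp.ne_zero, ArithmeticFunction.cardFactors_apply_prime_pow hp]
  have hmean : meanOf f = recipSum := funext fun N => sum_congr rfl fun q hq => by
    have := hfp q 1 (mem_primesUpTo.1 hq).1
    rw [pow_one] at this
    rw [this, Nat.cast_one, one_div]
  have hvar : varOf f = recipSum := funext fun N => sum_congr rfl fun q hq => by
    have := hfp q 1 (mem_primesUpTo.1 hq).1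
    rw [pow_one] at this
    rw [this, Nat.cast_one, one_pow, one_div]
  have hadd : ∀ m n : ℕ, m.Coprime n → f (m * n) = f m + f n := fun m n h => by
    rcases eq_or_ne m 0 with rfl | hm
    · rw [Nat.coprime_zero_left] at h
      simp [hf, h]
    rcases eq_or_ne n 0 with rfl | hn
    · rw [Nat.coprime_zero_right] at h
      simp [hf, h]
    simp [hf, hm, hn, ArithmeticFunction.cardFactors_mul hm hn]
  have hmain := tendsto_share_additive hadd
    (fun p k hp _ => le_of_eq (by rw [hfp p k hp, Nat.abs_cast])) (hvar ▸ tendsto_recipSum)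
  rw [hmean, hvar] at hmain
  obtain ⟨C, hC⟩ := FA.ErdosKac.exists_abs_recipSum_sub_le
  have hs : Tendsto (fun N : ℕ => √(loglog N)) atTop atTop :=
    Real.tendsto_sqrt_atTop.comp tendsto_loglog
  have hβ : Tendsto (fun N => (recipSum N - loglog N) / √(loglog N)) atTop (𝓝 0) := by
    refine squeeze_zero_norm' ?_ ((tendsto_const_nhds (x := C)).div_atTop hs)
    filter_upwards [eventually_ge_atTop 2] with N hN
    rw [Real.norm_eq_abs, abs_div, abs_of_nonneg (Real.sqrt_nonneg _)]
    exact div_le_div_of_nonneg_right (hC N hN) (Real.sqrt_nonneg _)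
  have hα : Tendsto (fun N => √(recipSum N) / √(loglog N)) atTop (𝓝 1) := by
    have h1 : Tendsto (fun N => recipSum N / loglog N) atTop (𝓝 1) := by
      refine tendsto_sub_nhds_zero_iff.1 ((hβ.mul hs.inv_tendsto_atTop).congr' ?_ |>.trans
        (by rw [zero_mul]))
      filter_upwards [tendsto_loglog.eventually_gt_atTop 0] with N hN
      rw [Pi.inv_apply, ← div_eq_mul_inv, div_div, Real.mul_self_sqrt hN.le, sub_div,
        div_self hN.ne']
    have h2 := (Real.continuous_sqrt.tendsto 1).comp h1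
    rw [Real.sqrt_one] at h2
    refine h2.congr' ?_
    filter_upwards [tendsto_loglog.eventually_gt_atTop 0] with N hN
    exact Real.sqrt_div' _ hN.le
  refine tendsto_share_affine (fun N n => (f n - recipSum N) / √(recipSum N))
    (fun N n => ((Ω n : ℝ) - loglog N) / √(loglog N)) _ _ hmain hα hβ ?_ x
  filter_upwards [tendsto_recipSum.eventually_gt_atTop 0,
    tendsto_loglog.eventually_gt_atTop 0] with N hR hl n
  have e : (Ω n : ℝ) = f n := by
    rcases eq_or_ne n 0 with rfl | hn
    · simp [hf]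
    · simp [hf, hn]
  rw [e]
  have := (Real.sqrt_pos.2 hR).ne'
  field_simp
  ring

/-- **Prime factors in a class.** -/
theorem tendsto_share_class {q : ℕ} [NeZero q] {a : ZMod q} (ha : IsUnit a) (x : ℝ) :
    Tendsto (fun N => share N fun n =>
      (((n.primeFactors.filter fun p : ℕ => (p : ZMod q) = a).card : ℝ) -
        ∑ p ∈ (Icc 1 N).filter (fun p : ℕ => p.Prime ∧ (p : ZMod q) = a), (p : ℝ)⁻¹) /
        √(∑ p ∈ (Icc 1 N).filter (fun p : ℕ => p.Prime ∧ (p : ZMod q) = a), (p : ℝ)⁻¹) ≤ x)
      atTop (𝓝 (normalCdf x)) := by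
  classical
  set f : ℕ → ℝ := fun n =>
    ((n.primeFactors.filter fun p : ℕ => (p : ZMod q) = a).card : ℝ) with hf
  set A : ℕ → ℝ := fun N =>
    ∑ p ∈ (Icc 1 N).filter (fun p : ℕ => p.Prime ∧ (p : ZMod q) = a), (p : ℝ)⁻¹ with hA
  have hfp : ∀ p : ℕ, p.Prime → f p = if (p : ZMod q) = a then 1 else 0 := fun p hp => by
    rw [hf]
    simp only [hp.primeFactors, filter_singleton]
    split_ifs <;> simp
  have hsum : ∀ (g : ℕ → ℝ) N, (∀ p : ℕ, p.Prime → g p = f p / p) →
      ∑ p ∈ primesUpTo N, g p = A N := fun g N hg => by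
    simp only [hA]
    rw [show (Icc 1 N).filter (fun p : ℕ => p.Prime ∧ (p : ZMod q) = a) =
      (primesUpTo N).filter fun p : ℕ => (p : ZMod q) = a from (filter_filter _ _ _).symm,
      sum_filter (s := primesUpTo N)]
    refine sum_congr rfl fun p hp => ?_
    rw [hg p (mem_primesUpTo.1 hp).1, hfp p (mem_primesUpTo.1 hp).1]
    split_ifs <;> simp
  have hmean : meanOf f = A := funext fun N => hsum _ N fun p _ => rfl
  have hvar : varOf f = A := funext fun N => hsum _ N fun p hp => by
    rw [hfp p hp]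
    split_ifs <;> simp
  have hadd : ∀ m n : ℕ, m.Coprime n → f (m * n) = f m + f n := fun m n h => by
    simp only [hf]
    rw [h.primeFactors_mul, filter_union, card_union_of_disjoint
      (disjoint_filter_filter h.disjoint_primeFactors), Nat.cast_add]
  have hbound : ∀ p k : ℕ, p.Prime → 1 ≤ k → |f (p ^ k)| ≤ k := fun p k hp hk => by
    simp only [hf, Nat.primeFactors_prime_pow (by omega : k ≠ 0) hp, Nat.abs_cast]
    exact_mod_cast ((card_filter_le _ _).trans_eq (card_singleton p)).trans hk
  have hdiv : Tendsto A atTop atTop := by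
    have h := (not_summable_iff_tendsto_nat_atTop_of_nonneg fun n => Set.indicator_nonneg
      (fun (m : ℕ) _ => inv_nonneg.2 (Nat.cast_nonneg (α := ℝ) m)) n).1 (not_summable_class_inv ha)
    refine ((h.comp (tendsto_add_atTop_nat 1))).congr fun N => ?_
    simp only [Function.comp_apply, hA]
    rw [sum_filter, sum_range_succ' (n := N)]
    have e : ∑ p ∈ Icc 1 N, (if p.Prime ∧ (p : ZMod q) = a then (p : ℝ)⁻¹ else 0) =
        ∑ k ∈ range N, if (k + 1).Prime ∧ ((k + 1 : ℕ) : ZMod q) = a then
          ((k + 1 : ℕ) : ℝ)⁻¹ else 0 := by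
      rw [show Icc 1 N = Ico 1 (N + 1) from rfl, sum_Ico_eq_sum_range, Nat.add_sub_cancel]
      simp only [Nat.add_comm 1]
    rw [e, Set.indicator_of_notMem (show (0 : ℕ) ∉ {p : ℕ | p.Prime ∧ (p : ZMod q) = a} from
      fun h => Nat.not_prime_zero h.1), add_zero]
    refine sum_congr rfl fun k _ => ?_
    rw [Set.indicator_apply]
    rfl
  have hmain := tendsto_share_additive hadd hbound (hvar ▸ hdiv) x
  rwa [hmean, hvar] at hmain

end FA.AdditiveErdosKac
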