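import Fermat.Agent.ErdosKac.Model

/-!
# Divisibility by a set of primes against independent events

For a set `P` of primes the set `T` of those dividing a random `n ≤ N` is compared with the random
subset of `P` containing each `q` independently with probability `1 / q`.
-/

set_option autoImplicit false

noncomputable section

namespace FA.AdditiveErdosKac

open Finset

/-- The probability of the subset `T` in the model. -/
def subsetWeight (P T : Finset ℕ) : ℝ := (∏ q ∈ T, (q : ℝ)⁻¹) * ∏ q ∈ P \ T, (1 - (q : ℝ)⁻¹)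

/-- The mean in the model. -/
def modelMean (P : Finset ℕ) (g : Finset ℕ → ℂ) : ℂ := ∑ T ∈ P.powerset, subsetWeight P T * g T

/-- The mean in the model of a real function. -/
def modelReal (P : Finset ℕ) (g : Finset ℕ → ℝ) : ℝ := ∑ T ∈ P.powerset, subsetWeight P T * g T

/-- The mean over `1, ..., N`. -/
def intMean (N : ℕ) (P : Finset ℕ) (g : Finset ℕ → ℂ) : ℂ :=
  (∑ n ∈ Icc 1 N, g (P.filter (· ∣ n))) / N

/-- The mean over `1, ..., N` of a real function. -/
def intReal (N : ℕ) (P : Finset ℕ) (g : Finset ℕ → ℝ) : ℝ :=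
  (∑ n ∈ Icc 1 N, g (P.filter (· ∣ n))) / N

/-- The centred weighted count. -/
def centredSum (c : ℕ → ℝ) (P T : Finset ℕ) : ℝ :=
  ∑ q ∈ P, c q * ((if q ∈ T then (1 : ℝ) else 0) - (q : ℝ)⁻¹)

theorem sum_powerset_prod {R : Type*} [CommRing R] (P : Finset ℕ) (a b u v : ℕ → R) :
    ∑ T ∈ P.powerset, (∏ q ∈ T, a q) * (∏ q ∈ P \ T, b q) *
        ∏ q ∈ P, (if q ∈ T then u q else v q) = ∏ q ∈ P, (a q * u q + b q * v q) := by
  rw [prod_add]
  refine sum_congr rfl fun T hT => ?_
  rw [prod_mul_distrib, prod_mul_distrib, prod_ite, filter_mem_eq_inter,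
    inter_eq_right.2 (mem_powerset.1 hT), filter_notMem_eq_sdiff]
  ring

theorem modelMean_prod (P : Finset ℕ) (u v : ℕ → ℂ) :
    modelMean P (fun T => ∏ q ∈ P, if q ∈ T then u q else v q) =
      ∏ q ∈ P, ((q : ℂ)⁻¹ * u q + (1 - (q : ℂ)⁻¹) * v q) := by
  rw [← sum_powerset_prod P]
  simp [modelMean, subsetWeight]

theorem modelReal_prod (P : Finset ℕ) (u v : ℕ → ℝ) :
    modelReal P (fun T => ∏ q ∈ P, if q ∈ T then u q else v q) =
      ∏ q ∈ P, ((q : ℝ)⁻¹ * u q + (1 - (q : ℝ)⁻¹) * v q) :=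
  sum_powerset_prod P _ _ u v

theorem subsetWeight_nonneg {P : Finset ℕ} (hP : ∀ q ∈ P, q.Prime) (T : Finset ℕ) :
    0 ≤ subsetWeight P T :=
  mul_nonneg (prod_nonneg fun q _ => by positivity) (prod_nonneg fun q hq => sub_nonneg.2
    (inv_le_one_of_one_le₀ (Nat.one_le_cast.2 (hP q (mem_sdiff.1 hq).1).one_le)))

theorem modelReal_subset {P W : Finset ℕ} (hW : W ⊆ P) :
    modelReal P (fun T => if W ⊆ T then 1 else 0) = ∏ q ∈ W, (q : ℝ)⁻¹ := by
  have h : ∀ T : Finset ℕ, (if W ⊆ T then (1 : ℝ) else 0) =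
      ∏ q ∈ P, if q ∈ T then 1 else (if q ∈ W then 0 else 1) := fun T => by
    by_cases hs : W ⊆ T
    · rw [if_pos hs]
      refine (prod_eq_one fun q _ => ?_).symm
      split_ifs with h1 h2
      · rfl
      · exact absurd (hs h2) h1
      · rfl
    · rw [if_neg hs]
      obtain ⟨q, hq, hqT⟩ := not_subset.1 hs
      exact (prod_eq_zero (hW hq) (by rw [if_neg hqT, if_pos hq])).symm
  simp only [h]
  rw [modelReal_prod, ← prod_sdiff hW, prod_eq_one (fun q hq => ?_), one_mul]
  · exact prod_congr rfl fun q hq => by rw [if_pos hq]; ring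
  · rw [if_neg (mem_sdiff.1 hq).2]; ring

theorem abs_intReal_sub_modelReal_subset {P W : Finset ℕ} (hP : ∀ q ∈ P, q.Prime) (hW : W ⊆ P)
    {N : ℕ} (hN : 0 < N) :
    |intReal N P (fun T => if W ⊆ T then 1 else 0) -
      modelReal P (fun T => if W ⊆ T then 1 else 0)| ≤ (N : ℝ)⁻¹ := by
  have hN' : (0 : ℝ) < N := Nat.cast_pos.2 hN
  rw [modelReal_subset hW, intReal, sum_boole, FA.ErdosKac.card_filter_dvd_all hP hW,
    prod_inv_distrib, ← Nat.cast_prod]
  set m := ∏ q ∈ W, q
  have hm : (0 : ℝ) < m := Nat.cast_pos.2 (prod_pos fun q hq => (hP q (hW hq)).pos)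
  have h1 : ((N / m : ℕ) : ℝ) ≤ N / m := Nat.cast_div_le
  have h2 : (N : ℝ) / m - 1 ≤ ((N / m : ℕ) : ℝ) := by
    rw [← Nat.floor_div_eq_div (K := ℝ)]
    exact (Nat.sub_one_lt_floor _).le
  rw [div_sub' hN'.ne', abs_div, abs_of_pos hN']
  refine (div_le_div_of_nonneg_right ?_ hN'.le).trans_eq (one_div _)
  rw [abs_le]
  constructor <;>
    linarith [show (N : ℝ) * (m : ℝ)⁻¹ = N / m from (div_eq_mul_inv _ _).symm]

theorem centredSum_pow (c : ℕ → ℝ) (P T : Finset ℕ) (k : ℕ) :
    centredSum c P T ^ k = ∑ g ∈ Fintype.piFinset fun _ : Fin k => P,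
      ∑ U ∈ (univ : Finset (Fin k)).powerset,
        (∏ i, c (g i)) * (∏ i ∈ univ \ U, -((g i : ℝ)⁻¹)) *
          (if U.image g ⊆ T then 1 else 0) := by
  rw [centredSum, sum_pow']
  refine sum_congr rfl fun g _ => ?_
  simp only [prod_mul_distrib, sub_eq_add_neg]
  rw [prod_add, mul_sum]
  refine sum_congr rfl fun U _ => ?_
  simp only [prod_boole, image_subset_iff]
  split_ifs <;> simp

/-- **The moments agree with those of the model.** -/
theorem abs_moment_sub_le {P : Finset ℕ} (hP : ∀ q ∈ P, q.Prime) (c : ℕ → ℝ) (N k : ℕ)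
    (hN : 0 < N) :
    |intReal N P (fun T => centredSum c P T ^ k) - modelReal P (fun T => centredSum c P T ^ k)| ≤
      (2 * ∑ q ∈ P, |c q|) ^ k / N := by
  set G := Fintype.piFinset fun _ : Fin k => P with hG
  set coef := fun (g : Fin k → ℕ) (U : Finset (Fin k)) =>
    (∏ i, c (g i)) * ∏ i ∈ univ \ U, -((g i : ℝ)⁻¹) with hcoef
  have e : intReal N P (fun T => centredSum c P T ^ k) -
      modelReal P (fun T => centredSum c P T ^ k) = ∑ g ∈ G, ∑ U ∈ univ.powerset, coef g U *
        (intReal N P (fun T => if U.image g ⊆ T then 1 else 0) -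
          modelReal P (fun T => if U.image g ⊆ T then 1 else 0)) := by
    simp only [intReal, modelReal, centredSum_pow, mul_sub, sum_sub_distrib, mul_div_assoc',
      mul_sum, sum_div, hcoef, hG]
    congr 1
    · rw [sum_comm]
      exact sum_congr rfl fun g _ => sum_comm
    · rw [sum_comm]
      refine sum_congr rfl fun g _ => ?_
      rw [sum_comm]
      exact sum_congr rfl fun U _ => sum_congr rfl fun T _ => by ring
  rw [e, mul_pow, sum_pow', ← hG, mul_sum, sum_div]
  refine (abs_sum_le_sum_abs _ _).trans (sum_le_sum fun g hg => ?_)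
  rw [mul_div_assoc, show (2 : ℝ) ^ k = ∑ _U ∈ (univ : Finset (Fin k)).powerset, (1 : ℝ) by simp,
    sum_mul]
  refine (abs_sum_le_sum_abs _ _).trans (sum_le_sum fun U _ => ?_)
  rw [one_mul, abs_mul, div_eq_mul_inv]
  have hmem : ∀ i, g i ∈ P := fun i => Fintype.mem_piFinset.1 hg i
  refine mul_le_mul ?_ (abs_intReal_sub_modelReal_subset hP (fun q hq => by
    obtain ⟨i, -, rfl⟩ := mem_image.1 hq
    exact hmem i) hN) (abs_nonneg _) (prod_nonneg fun _ _ => abs_nonneg _)
  rw [hcoef, abs_mul, abs_prod, abs_prod]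
  refine mul_le_of_le_one_right (prod_nonneg fun _ _ => abs_nonneg _)
    (prod_le_one (fun _ _ => abs_nonneg _) fun i _ => ?_)
  rw [abs_neg, abs_inv, Nat.abs_cast]
  exact inv_le_one_of_one_le₀ (Nat.one_le_cast.2 (hP _ (hmem i)).one_le)

end FA.AdditiveErdosKac
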