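import Fermat.Agent.AdditiveErdosKac.Exponential
import Fermat.Agent.ErdosKac.Main

/-!
# Strongly additive functions: the characteristic function
-/

set_option autoImplicit false

noncomputable section

namespace FA.AdditiveErdosKac

open Finset Filter Topology
open FA.ErdosKac (primesUpTo mem_primesUpTo recipSum loglog tendsto_loglog sum_inv_sq_le)
open scoped Nat

/-- The mean of `∑ f p` over the prime divisors `p` of `n ≤ N`. -/
def meanOf (f : ℕ → ℝ) (N : ℕ) : ℝ := ∑ q ∈ primesUpTo N, f q / q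

/-- Their variance. -/
def varOf (f : ℕ → ℝ) (N : ℕ) : ℝ := ∑ q ∈ primesUpTo N, f q ^ 2 / q

/-- The truncation point `N ^ (1 / exp √B)`. -/
def cutAt (f : ℕ → ℝ) (N : ℕ) : ℕ :=
  ⌊Real.exp (Real.log N / Real.exp √√(varOf f N))⌋₊

/-- The mean of `exp (i h)` over `1, ..., N`. -/
def waveMean (N : ℕ) (h : ℕ → ℝ) : ℂ :=
  (∑ n ∈ Icc 1 N, Complex.exp ((h n : ℂ) * Complex.I)) / N

theorem norm_waveMean_sub_le (N : ℕ) (h1 h2 : ℕ → ℝ) :
    ‖waveMean N h1 - waveMean N h2‖ ≤ (∑ n ∈ Icc 1 N, |h1 n - h2 n|) / N := by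
  rw [waveMean, waveMean, ← sub_div, ← sum_sub_distrib, norm_div, Complex.norm_natCast]
  refine div_le_div_of_nonneg_right ((norm_sum_le _ _).trans (sum_le_sum fun n _ => ?_))
    (Nat.cast_nonneg N)
  rw [show Complex.exp ((h1 n : ℂ) * Complex.I) - Complex.exp ((h2 n : ℂ) * Complex.I) =
    Complex.exp ((h2 n : ℂ) * Complex.I) *
      (Complex.exp (Complex.I * ((h1 n - h2 n : ℝ) : ℂ)) - 1) by
        rw [mul_sub, ← Complex.exp_add, mul_one]; push_cast; ring_nf,
    norm_mul, Complex.norm_exp_ofReal_mul_I, one_mul, ← Real.norm_eq_abs]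
  exact Real.norm_exp_I_mul_ofReal_sub_one_le

theorem sum_filter_dvd_le (Q : Finset ℕ) (w : ℕ → ℝ) (hw : ∀ q ∈ Q, 0 ≤ w q) (N : ℕ) :
    ∑ n ∈ Icc 1 N, ∑ q ∈ Q.filter (· ∣ n), w q ≤ N * ∑ q ∈ Q, w q / q := by
  simp only [sum_filter]
  rw [sum_comm, mul_sum]
  refine sum_le_sum fun q hq => ?_
  rw [← sum_filter, sum_const, nsmul_eq_mul, show Icc 1 N = Ioc 0 N from rfl,
    Nat.Ioc_filter_dvd_card_eq_div, ← mul_div_assoc, mul_div_right_comm]
  exact mul_le_mul_of_nonneg_right Nat.cast_div_le (hw q hq)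

variable {f : ℕ → ℝ} (hf : ∀ q : ℕ, q.Prime → |f q| ≤ 1)
include hf

theorem varOf_le_recipSum (N : ℕ) : varOf f N ≤ recipSum N :=
  sum_le_sum fun q hq => by
    rw [div_eq_mul_inv]
    exact mul_le_of_le_one_left (by positivity) (sq_le_one_iff_abs_le_one _ |>.2
      (hf q (mem_primesUpTo.1 hq).1))

variable (hdiv : Tendsto (varOf f) atTop atTop)
include hdiv

theorem eventually_cutAt : ∃ C : ℝ, ∀ᶠ N : ℕ in atTop,
    2 ≤ cutAt f N ∧ cutAt f N ≤ N ∧
      recipSum N - recipSum (cutAt f N) ≤ √√(varOf f N) + C ∧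
        Real.log (cutAt f N) ≤ Real.log N / Real.exp √√(varOf f N) := by
  obtain ⟨C, hC⟩ := FA.ErdosKac.exists_abs_recipSum_sub_le
  refine ⟨Real.log 2 + 2 * C, ?_⟩
  filter_upwards [tendsto_loglog.eventually_ge_atTop (max C 4), eventually_ge_atTop 2,
    hdiv.eventually_ge_atTop 1] with N hl hN hv
  have hl4 : (4 : ℝ) ≤ loglog N := (le_max_right _ _).trans hl
  have hlogN : 0 < Real.log N := Real.log_pos (Nat.one_lt_cast.2 (by omega))
  set R := √√(varOf f N) with hR
  have hR1 : 1 ≤ R := by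
    rw [hR]
    exact Real.one_le_sqrt.2 (Real.one_le_sqrt.2 hv)
  have hRl : R ≤ loglog N / 2 := by
    have h1 : varOf f N ≤ loglog N ^ 2 := by
      have h2 := (abs_le.1 (hC N hN)).2
      have h3 := varOf_le_recipSum hf N
      rw [loglog] at *
      nlinarith [(le_max_left _ _).trans hl]
    rw [hR, Real.sqrt_le_left (by linarith), Real.sqrt_le_left (by positivity)]
    refine h1.trans (pow_le_pow_left₀ (by linarith) ?_ 2)
    nlinarith
  set e := Real.log N / Real.exp R with he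
  have hee : e = Real.exp (loglog N - R) := by
    rw [he, loglog, Real.exp_sub, Real.exp_log hlogN]
  have he3 : 3 ≤ e := by
    rw [hee]
    linarith [Real.add_one_le_exp (loglog N - R)]
  have hexp : (3 : ℝ) ≤ Real.exp e := by linarith [Real.add_one_le_exp e]
  have hy : cutAt f N = ⌊Real.exp e⌋₊ := rfl
  have hy2 : 2 ≤ cutAt f N := hy ▸ Nat.le_floor (by push_cast; linarith)
  have hy0 : (0 : ℝ) < cutAt f N := Nat.cast_pos.2 (by omega)
  have hup : Real.log (cutAt f N) ≤ e :=
    (Real.log_le_log hy0 (hy ▸ Nat.floor_le (Real.exp_pos e).le)).trans_eq (Real.log_exp e)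
  have hlo : e / 2 ≤ Real.log (cutAt f N) := by
    have h := Nat.lt_floor_add_one (Real.exp e)
    rw [← hy] at h
    have h1 : (2 : ℝ) ≤ cutAt f N := Nat.ofNat_le_cast.2 hy2
    have h2 := Real.log_le_log (Real.exp_pos e) (show Real.exp e ≤ 2 * cutAt f N by linarith)
    rw [Real.log_exp, Real.log_mul two_ne_zero hy0.ne'] at h2
    linarith [Real.log_two_lt_d9]
  refine ⟨hy2, ?_, ?_, hup⟩
  · rw [hy, ← Nat.floor_natCast (R := ℝ) N]
    refine Nat.floor_mono ((Real.exp_le_exp.2 ?_).trans_eq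
      (Real.exp_log (Nat.cast_pos.2 (show 0 < N by omega))))
    exact div_le_self hlogN.le (Real.one_le_exp (by linarith))
  · have h1 := Real.log_le_log (show 0 < e / 2 by linarith) hlo
    rw [Real.log_div (by linarith) two_ne_zero, hee, Real.log_exp] at h1
    have a1 := abs_le.1 (hC N hN)
    have a2 := abs_le.1 (hC _ hy2)
    rw [loglog] at h1
    linarith

omit hf in
theorem tendsto_sqrt_add_div (C : ℝ) :
    Tendsto (fun N => (√√(varOf f N) + C) / √(varOf f N)) atTop (𝓝 0) := by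
  have hx : Tendsto (fun N => √√(varOf f N)) atTop atTop :=
    Real.tendsto_sqrt_atTop.comp (Real.tendsto_sqrt_atTop.comp hdiv)
  have h := hx.inv_tendsto_atTop.add
    ((hx.inv_tendsto_atTop.mul hx.inv_tendsto_atTop).const_mul C)
  simp only [mul_zero, add_zero] at h
  refine h.congr' ?_
  filter_upwards [hx.eventually_gt_atTop 0] with N hN
  rw [← Real.mul_self_sqrt (Real.sqrt_nonneg (varOf f N)), Pi.inv_apply]
  field_simp
  rw [Real.sq_sqrt (Real.sqrt_nonneg _)]

/-- The cut costs nothing in mean. -/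
theorem tendsto_cut_cost : ∀ t : ℝ, Tendsto (fun N =>
    waveMean N (fun n => t * ((∑ q ∈ n.primeFactors, f q) - meanOf f N) / √(varOf f N)) -
      intMean N (primesUpTo (cutAt f N)) (fun T => Complex.exp ((t * centredSum
        (fun q => f q / √(varOf f N)) (primesUpTo (cutAt f N)) T : ℝ) * Complex.I)))
    atTop (𝓝 0) := by
  intro t
  obtain ⟨C, hC⟩ := eventually_cutAt hf hdiv
  refine squeeze_zero_norm' ?_
    (by simpa using (tendsto_sqrt_add_div hdiv C).const_mul (2 * |t|))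
  filter_upwards [hC, hdiv.eventually_gt_atTop 0, eventually_gt_atTop 0] with N hN hv hN0
  obtain ⟨-, hle, hrec, -⟩ := hN
  set y := cutAt f N
  set B := √(varOf f N) with hB
  have hB0 : 0 < B := Real.sqrt_pos.2 hv
  have hsub : primesUpTo y ⊆ primesUpTo N := fun q hq =>
    mem_primesUpTo.2 ⟨(mem_primesUpTo.1 hq).1, (mem_primesUpTo.1 hq).2.trans hle⟩
  set Q := primesUpTo N \ primesUpTo y with hQ
  set L := ∑ q ∈ Q, |f q| / q with hL
  have hLr : L ≤ recipSum N - recipSum y := by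
    rw [recipSum, recipSum, ← sum_sdiff hsub, add_sub_cancel_right]
    exact sum_le_sum fun q hq => by
      rw [div_eq_mul_inv]
      exact mul_le_of_le_one_left (by positivity) (hf q (mem_primesUpTo.1 (mem_sdiff.1 hq).1).1)
  have e : intMean N (primesUpTo y) (fun T => Complex.exp ((t * centredSum
        (fun q => f q / B) (primesUpTo y) T : ℝ) * Complex.I)) = waveMean N (fun n =>
          t * centredSum (fun q => f q / B) (primesUpTo y) ((primesUpTo y).filter (· ∣ n))) := rfl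
  rw [e]
  refine (norm_waveMean_sub_le N _ _).trans ?_
  rw [div_le_iff₀ (Nat.cast_pos.2 hN0)]
  refine (sum_le_sum (g := fun n => |t| / B * ((∑ q ∈ Q.filter (· ∣ n), |f q|) + L))
    fun n hn => ?_).trans ?_
  · rw [mem_Icc] at hn
    have hfac : n.primeFactors = (primesUpTo N).filter (· ∣ n) := by
      ext q
      rw [Nat.mem_primeFactors, mem_filter, mem_primesUpTo]
      exact ⟨fun h => ⟨⟨h.1, (Nat.le_of_dvd hn.1 h.2.1).trans hn.2⟩, h.2.1⟩,
        fun h => ⟨h.1.1, h.2, by omega⟩⟩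
    have hs : centredSum (fun q => f q / B) (primesUpTo y) ((primesUpTo y).filter (· ∣ n)) =
        ((∑ q ∈ (primesUpTo y).filter (· ∣ n), f q) - meanOf f y) / B := by
      rw [centredSum, meanOf, sub_div, sum_div, sum_div, sum_filter, ← sum_sub_distrib]
      refine sum_congr rfl fun q hq => ?_
      simp only [mem_filter, hq, true_and]
      split_ifs <;> ring
    have h1 : ∑ q ∈ n.primeFactors, f q =
        ∑ q ∈ (primesUpTo y).filter (· ∣ n), f q + ∑ q ∈ Q.filter (· ∣ n), f q := by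
      rw [hfac, ← sum_union (disjoint_filter_filter disjoint_sdiff), ← filter_union,
        union_sdiff_of_subset hsub]
    have h2 : meanOf f N = meanOf f y + ∑ q ∈ Q, f q / q := by
      rw [meanOf, meanOf, ← sum_sdiff hsub, add_comm]
    rw [hs, h1, h2, mul_div_assoc, ← mul_sub, ← sub_div, abs_mul, abs_div, abs_of_pos hB0,
      div_mul_eq_mul_div, ← mul_div_assoc]
    refine div_le_div_of_nonneg_right (mul_le_mul_of_nonneg_left ?_ (abs_nonneg t)) hB0.le
    rw [show ∀ a b c d : ℝ, a + b - (c + d) - (a - c) = b - d from fun a b c d => by ring]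
    refine (abs_sub _ _).trans (add_le_add (abs_sum_le_sum_abs _ _)
      ((abs_sum_le_sum_abs _ _).trans_eq (sum_congr rfl fun q _ => ?_)))
    rw [abs_div, Nat.abs_cast]
  · rw [← mul_sum, sum_add_distrib, sum_const, Nat.card_Icc, Nat.add_sub_cancel, nsmul_eq_mul]
    have h3 := sum_filter_dvd_le Q (fun q => |f q|) (fun q _ => abs_nonneg _) N
    refine (mul_le_mul_of_nonneg_left (add_le_add h3 le_rfl) (by positivity)).trans ?_
    rw [← hL, ← two_mul, mul_comm (2 * |t|), mul_assoc, ← mul_assoc (|t| / B)]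
    have h4 := mul_le_mul_of_nonneg_left (hLr.trans hrec)
      (show 0 ≤ |t| / B * 2 * N by positivity)
    linear_combination h4

/-- The integers follow the model as far as the cut. -/
theorem tendsto_int_model (t : ℝ) : Tendsto (fun N =>
    intMean N (primesUpTo (cutAt f N)) (fun T => Complex.exp ((t * centredSum
        (fun q => f q / √(varOf f N)) (primesUpTo (cutAt f N)) T : ℝ) * Complex.I)) -
      modelMean (primesUpTo (cutAt f N)) (fun T => Complex.exp ((t * centredSum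
        (fun q => f q / √(varOf f N)) (primesUpTo (cutAt f N)) T : ℝ) * Complex.I)))
    atTop (𝓝 0) := by
  obtain ⟨C, hC⟩ := eventually_cutAt hf hdiv
  refine tendsto_zero_iff_norm_tendsto_zero.2 (tendsto_order.2 ⟨fun c hc => .of_forall fun N =>
    hc.trans_le (norm_nonneg _), fun c hc => ?_⟩)
  set G := 2 * Real.exp (Real.exp (8 * |t| * 1) * (8 * |t|) ^ 2 * 1) with hG
  have hpow : Tendsto (fun k : ℕ => 4 * ((1 / 2 : ℝ) ^ (2 * k) * G)) atTop (𝓝 0) := by
    simpa using (((tendsto_pow_atTop_nhds_zero_of_lt_one (by norm_num : (0 : ℝ) ≤ 1 / 2)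
      (by norm_num)).comp (tendsto_id.const_mul_atTop' two_pos)).mul_const G).const_mul 4
  obtain ⟨k, hk⟩ := (hpow.eventually_lt_const hc).exists
  set n := 2 * k with hn
  have hmom : ∀ m : ℕ, Tendsto (fun N : ℕ => (2 * (cutAt f N : ℝ)) ^ m / N) atTop (𝓝 0) := by
    intro m
    have hR : Tendsto (fun N => Real.exp √√(varOf f N)) atTop atTop :=
      Real.tendsto_exp_atTop.comp (Real.tendsto_sqrt_atTop.comp (Real.tendsto_sqrt_atTop.comp hdiv))
    have h0 : Tendsto (fun N : ℕ => (2 : ℝ) ^ m / √(N : ℝ)) atTop (𝓝 0) :=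
      tendsto_const_nhds.div_atTop (Real.tendsto_sqrt_atTop.comp tendsto_natCast_atTop_atTop)
    refine squeeze_zero' (.of_forall fun N => by positivity) ?_ h0
    filter_upwards [hC, hR.eventually_ge_atTop (2 * m), eventually_gt_atTop 0] with N hN hr hN0
    obtain ⟨h2, -, -, hlog⟩ := hN
    have hN' : (0 : ℝ) < N := Nat.cast_pos.2 hN0
    have hy0 : (0 : ℝ) < cutAt f N := Nat.cast_pos.2 (by omega)
    have hym : (cutAt f N : ℝ) ^ m ≤ √(N : ℝ) := by
      refine (Real.log_le_log_iff (by positivity) (Real.sqrt_pos.2 hN')).1 ?_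
      rw [Real.log_pow, Real.log_sqrt hN'.le]
      refine (mul_le_mul_of_nonneg_left hlog (Nat.cast_nonneg m)).trans ?_
      rw [← mul_div_assoc, div_le_div_iff₀ (Real.exp_pos _) two_pos]
      nlinarith [Real.log_natCast_nonneg N]
    rw [mul_pow, div_le_div_iff₀ hN' (Real.sqrt_pos.2 hN'), mul_assoc]
    refine mul_le_mul_of_nonneg_left ?_ (by positivity)
    calc (cutAt f N : ℝ) ^ m * √(N : ℝ) ≤ √(N : ℝ) * √(N : ℝ) :=
          mul_le_mul_of_nonneg_right hym (Real.sqrt_nonneg _)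
      _ = N := Real.mul_self_sqrt hN'.le
  have hlim := ((tendsto_finsetSum (range n) fun m _ => (hmom m).const_mul
    (|t| ^ m / (m ! : ℝ))).add
    ((hmom n).const_mul (2 * (4 * |t|) ^ n / (n ! : ℝ)))).add_const (4 * ((1 / 2 : ℝ) ^ n * G))
  simp only [mul_zero, sum_const_zero, zero_add] at hlim
  filter_upwards [hlim.eventually_lt_const hk, hC, hdiv.eventually_ge_atTop 1,
    eventually_gt_atTop 0] with N hN hcut hv hN0
  refine lt_of_le_of_lt ?_ hN
  obtain ⟨-, hle, -, -⟩ := hcut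
  set y := cutAt f N
  set B := √(varOf f N) with hB
  have hB1 : 1 ≤ B := Real.one_le_sqrt.2 hv
  have hP : ∀ q ∈ primesUpTo y, q.Prime := fun q hq => (mem_primesUpTo.1 hq).1
  have hsub : primesUpTo y ⊆ primesUpTo N := fun q hq =>
    mem_primesUpTo.2 ⟨hP q hq, (mem_primesUpTo.1 hq).2.trans hle⟩
  have hc1 : ∀ q ∈ primesUpTo y, |f q / B| ≤ 1 := fun q hq => by
    rw [abs_div, abs_of_pos (one_pos.trans_le hB1)]
    exact div_le_one_of_le₀ ((hf q (hP q hq)).trans hB1) (by linarith)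
  have hsum : ∑ q ∈ primesUpTo y, |f q / B| ≤ (y : ℝ) := by
    refine (sum_le_card_nsmul _ _ 1 hc1).trans ?_
    rw [nsmul_one, Nat.cast_le]
    exact (card_le_card fun q hq => mem_Icc.2 ⟨(hP q hq).one_le, (mem_primesUpTo.1 hq).2⟩).trans
      (by rw [Nat.card_Icc, Nat.add_sub_cancel])
  have hvar : ∑ q ∈ primesUpTo y, (f q / B) ^ 2 / q ≤ 1 := by
    simp only [div_pow, div_right_comm _ (B ^ 2), ← sum_div]
    rw [hB, Real.sq_sqrt (by linarith), div_le_one (by linarith)]
    exact sum_le_sum_of_subset_of_nonneg hsub fun q _ _ => by positivity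
  have h8 := modelReal_pow_le hP (fun q => f q / B) hc1 (even_two_mul k)
    (show 0 ≤ 8 * |t| by positivity)
  have h8' : (4 * |t|) ^ n / (n ! : ℝ) *
      modelReal (primesUpTo y) (fun T => centredSum (fun q => f q / B) (primesUpTo y) T ^ n) ≤
        (1 / 2 : ℝ) ^ n * G := by
    rw [show 4 * |t| = 1 / 2 * (8 * |t|) by ring, mul_pow, mul_div_assoc, mul_assoc]
    refine mul_le_mul_of_nonneg_left (h8.trans ?_) (by positivity)
    rw [hG]
    gcongr
  refine (norm_intMean_sub_modelMean_le hP (fun q => f q / B) hN0 t (even_two_mul k)).trans ?_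
  have hmono : ∀ m, (2 * ∑ q ∈ primesUpTo y, |f q / B|) ^ m / N ≤ (2 * (y : ℝ)) ^ m / N :=
    fun m => div_le_div_of_nonneg_right
      (pow_le_pow_left₀ (by positivity) (by linarith) m) (Nat.cast_nonneg N)
  refine add_le_add (add_le_add (sum_le_sum fun m _ => ?_) ?_)
    (mul_le_mul_of_nonneg_left h8' (by norm_num))
  · exact mul_le_mul_of_nonneg_left (hmono m) (by positivity)
  · exact mul_le_mul_of_nonneg_left (hmono n) (by positivity)

/-- The model is normal in the limit. -/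
theorem tendsto_model_normal (t : ℝ) : Tendsto (fun N =>
    modelMean (primesUpTo (cutAt f N)) (fun T => Complex.exp ((t * centredSum
      (fun q => f q / √(varOf f N)) (primesUpTo (cutAt f N)) T : ℝ) * Complex.I))) atTop
    (𝓝 (Real.exp (-t ^ 2 / 2) : ℂ)) := by
  obtain ⟨C, hC⟩ := eventually_cutAt hf hdiv
  set V := fun N => ∑ q ∈ primesUpTo (cutAt f N),
    (f q / √(varOf f N)) ^ 2 * ((q : ℝ)⁻¹ * (1 - (q : ℝ)⁻¹)) with hV
  have hB : Tendsto (fun N => √(varOf f N)) atTop atTop := Real.tendsto_sqrt_atTop.comp hdiv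
  have hV1 : Tendsto V atTop (𝓝 1) := by
    have h0 : Tendsto (fun N => (√√(varOf f N) + (C + 1)) / √(varOf f N) * (√(varOf f N))⁻¹)
        atTop (𝓝 0) := by
      simpa using (tendsto_sqrt_add_div hdiv (C + 1)).mul hB.inv_tendsto_atTop
    refine tendsto_sub_nhds_zero_iff.1 (squeeze_zero_norm' ?_ h0)
    filter_upwards [hC, hdiv.eventually_gt_atTop 0] with N hN hv
    obtain ⟨-, hle, hrec, -⟩ := hN
    have hsub : primesUpTo (cutAt f N) ⊆ primesUpTo N := fun q hq =>
      mem_primesUpTo.2 ⟨(mem_primesUpTo.1 hq).1, (mem_primesUpTo.1 hq).2.trans hle⟩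
    have e : V N - 1 = -((∑ q ∈ primesUpTo N \ primesUpTo (cutAt f N), f q ^ 2 / q) +
        ∑ q ∈ primesUpTo (cutAt f N), f q ^ 2 * (q : ℝ)⁻¹ ^ 2) / varOf f N := by
      rw [eq_div_iff hv.ne', sub_mul, one_mul, hV]
      simp only [div_pow, Real.sq_sqrt hv.le, sum_mul]
      conv_lhs => arg 2; rw [varOf, ← sum_sdiff hsub]
      rw [sub_add_eq_sub_sub_swap, ← sum_sub_distrib, neg_add, ← sum_neg_distrib]
      have e' : ∑ q ∈ primesUpTo (cutAt f N),
          (f q ^ 2 / varOf f N * ((q : ℝ)⁻¹ * (1 - (q : ℝ)⁻¹)) * varOf f N - f q ^ 2 / q) =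
          -∑ q ∈ primesUpTo (cutAt f N), f q ^ 2 * (q : ℝ)⁻¹ ^ 2 := by
        rw [← sum_neg_distrib]
        refine sum_congr rfl fun q _ => ?_
        rw [mul_right_comm, div_mul_cancel₀ _ hv.ne']
        ring
      rw [e', sum_neg_distrib]
      ring
    rw [e, Real.norm_eq_abs, abs_div, abs_neg, abs_of_pos hv, abs_of_nonneg (add_nonneg
      (sum_nonneg fun q _ => by positivity) (sum_nonneg fun q _ => by positivity)),
      ← div_eq_mul_inv, div_div, Real.mul_self_sqrt hv.le]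
    refine div_le_div_of_nonneg_right ?_ hv.le
    rw [← add_assoc]
    refine add_le_add (le_trans ?_ hrec) ?_
    · rw [recipSum, recipSum, ← sum_sdiff hsub, add_sub_cancel_right]
      exact sum_le_sum fun q hq => by
        rw [div_eq_mul_inv]
        exact mul_le_of_le_one_left (by positivity) ((sq_le_one_iff_abs_le_one _).2
          (hf q (mem_primesUpTo.1 (mem_sdiff.1 hq).1).1))
    · refine le_trans (sum_le_sum fun q hq => ?_) (sum_inv_sq_le _ fun q hq =>
        (mem_primesUpTo.1 hq).1)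
      exact mul_le_of_le_one_left (by positivity) ((sq_le_one_iff_abs_le_one _).2
        (hf q (mem_primesUpTo.1 hq).1))
  have hexp : Tendsto (fun N => (Real.exp (-(t ^ 2 * V N) / 2) : ℂ)) atTop
      (𝓝 (Real.exp (-t ^ 2 / 2) : ℂ)) := by
    have h := ((((hV1.const_mul (t ^ 2)).neg).div_const 2).rexp)
    rw [mul_one] at h
    exact Complex.continuous_ofReal.tendsto _ |>.comp h
  refine (tendsto_iff_of_dist ?_).2 hexp
  refine squeeze_zero' (.of_forall fun N => dist_nonneg) ?_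
    (by simpa using hB.inv_tendsto_atTop.const_mul (8 * |t| ^ 3 + t ^ 4 / 4))
  filter_upwards [hC, hdiv.eventually_ge_atTop 1] with N hN hv
  obtain ⟨-, hle, -, -⟩ := hN
  set B := √(varOf f N) with hBdef
  have hB1 : 1 ≤ B := Real.one_le_sqrt.2 hv
  have hP : ∀ q ∈ primesUpTo (cutAt f N), q.Prime := fun q hq => (mem_primesUpTo.1 hq).1
  rw [dist_eq_norm]
  refine (norm_modelMean_sub_exp_le hP (fun q => f q / B) t).trans ?_
  have hvar : ∑ q ∈ primesUpTo (cutAt f N), f q ^ 2 / q ≤ B ^ 2 := by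
    rw [hBdef, Real.sq_sqrt (by linarith)]
    exact sum_le_sum_of_subset_of_nonneg (fun q hq => mem_primesUpTo.2
      ⟨hP q hq, (mem_primesUpTo.1 hq).2.trans hle⟩) fun q _ _ => by positivity
  calc ∑ q ∈ primesUpTo (cutAt f N), (8 * |t * (f q / B)| ^ 3 + (t * (f q / B)) ^ 4 / 4) / q
      ≤ ∑ q ∈ primesUpTo (cutAt f N), (8 * |t| ^ 3 + t ^ 4 / 4) / B ^ 3 * (f q ^ 2 / q) :=
        sum_le_sum fun q hq => by
          have h1 := hf q (hP q hq)
          have h2 : |f q| ^ 3 ≤ f q ^ 2 := by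
            rw [pow_succ, sq_abs]; exact mul_le_of_le_one_right (sq_nonneg _) h1
          have h3 : f q ^ 4 ≤ B⁻¹ ^ 0 * f q ^ 2 := by
            rw [pow_zero, one_mul, show f q ^ 4 = f q ^ 2 * f q ^ 2 by ring]
            exact mul_le_of_le_one_right (sq_nonneg _) ((sq_le_one_iff_abs_le_one _).2 h1)
          have hB4 : B ^ 3 ≤ B ^ 4 := pow_le_pow_right₀ hB1 (by norm_num)
          rw [← mul_div_assoc ((8 * |t| ^ 3 + t ^ 4 / 4) / B ^ 3)]
          refine div_le_div_of_nonneg_right ?_ (Nat.cast_nonneg (α := ℝ) q)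
          rw [abs_mul, abs_div, abs_of_pos (one_pos.trans_le hB1), mul_pow, mul_pow, div_pow,
            div_pow]
          have h4 : f q ^ 4 / B ^ 4 ≤ f q ^ 2 / B ^ 3 := by
            refine div_le_div₀ (sq_nonneg _) ?_ (by positivity) hB4
            simpa using h3
          have h5 : |f q| ^ 3 / B ^ 3 ≤ f q ^ 2 / B ^ 3 :=
            div_le_div_of_nonneg_right h2 (by positivity)
          calc 8 * (|t| ^ 3 * (|f q| ^ 3 / B ^ 3)) + t ^ 4 * (f q ^ 4 / B ^ 4) / 4
              ≤ 8 * (|t| ^ 3 * (f q ^ 2 / B ^ 3)) + t ^ 4 * (f q ^ 2 / B ^ 3) / 4 := by gcongr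
            _ = _ := by ring
    _ = (8 * |t| ^ 3 + t ^ 4 / 4) / B ^ 3 * ∑ q ∈ primesUpTo (cutAt f N), f q ^ 2 / q :=
        (mul_sum _ _ _).symm
    _ ≤ (8 * |t| ^ 3 + t ^ 4 / 4) / B ^ 3 * B ^ 2 := by gcongr
    _ = (8 * |t| ^ 3 + t ^ 4 / 4) * B⁻¹ := by field_simp

/-- **The characteristic function tends to the normal one.** -/
theorem tendsto_waveMean_strong (t : ℝ) : Tendsto (fun N =>
    waveMean N (fun n => t * ((∑ q ∈ n.primeFactors, f q) - meanOf f N) / √(varOf f N))) atTop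
    (𝓝 (Real.exp (-t ^ 2 / 2) : ℂ)) := by
  have h := ((tendsto_cut_cost hf hdiv t).add (tendsto_int_model hf hdiv t)).add
    (tendsto_model_normal hf hdiv t)
  simpa using h

end FA.AdditiveErdosKac
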